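import Fermat.Agent.LePage.Moments

/-!
# Exponentially small events

A quantity which is subadditive along products and has mean at most `-1` over some block is
nonnegative only with exponentially small probability.
-/

set_option autoImplicit false

noncomputable section

namespace FA.ProjectiveRegularity

open MeasureTheory Filter Topology Module Set
open FA.FurstenbergLyapunov FA.FurstenbergKifer FA.LePage
open scoped ENNReal

/-- Exponential decay, uniform in a parameter. -/
def Decays {ι : Sort*} (p : ι → ℕ → ℝ≥0∞) : Prop :=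
  ∃ C r : ℝ, 0 ≤ C ∧ 0 < r ∧ r < 1 ∧ ∀ i n, p i n ≤ ENNReal.ofReal (C * r ^ n)

theorem Decays.mono {ι : Sort*} {p q : ι → ℕ → ℝ≥0∞} (hp : Decays p) (h : ∀ i n, q i n ≤ p i n) :
    Decays q := by
  obtain ⟨C, r, hC, hr, hr1, hb⟩ := hp
  exact ⟨C, r, hC, hr, hr1, fun i n => (h i n).trans (hb i n)⟩

theorem Decays.comp {ι κ : Sort*} {p : ι → ℕ → ℝ≥0∞} (hp : Decays p) (f : κ → ι) :
    Decays fun k => p (f k) := by
  obtain ⟨C, r, hC, hr, hr1, hb⟩ := hp
  exact ⟨C, r, hC, hr, hr1, fun k => hb (f k)⟩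

theorem Decays.add {ι : Sort*} {p q : ι → ℕ → ℝ≥0∞} (hp : Decays p) (hq : Decays q) :
    Decays fun i n => p i n + q i n := by
  obtain ⟨C, r, hC, hr, hr1, hb⟩ := hp
  obtain ⟨C', r', hC', hr', hr1', hb'⟩ := hq
  refine ⟨C + C', max r r', add_nonneg hC hC', hr.trans_le (le_max_left _ _), max_lt hr1 hr1',
    fun i n => ?_⟩
  rw [add_mul, ENNReal.ofReal_add (by positivity) (by positivity)]
  exact add_le_add
    ((hb i n).trans (ENNReal.ofReal_le_ofReal (mul_le_mul_of_nonneg_left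
      (pow_le_pow_left₀ hr.le (le_max_left _ _) n) hC)))
    ((hb' i n).trans (ENNReal.ofReal_le_ofReal (mul_le_mul_of_nonneg_left
      (pow_le_pow_left₀ hr'.le (le_max_right _ _) n) hC')))

/-- It is enough to compare eventually. -/
theorem Decays.of_eventually {ι : Sort*} {p q : ι → ℕ → ℝ≥0∞} (hp : Decays p)
    (h1 : ∀ i n, q i n ≤ 1) (h : ∀ᶠ n in atTop, ∀ i, q i n ≤ p i n) : Decays q := by
  obtain ⟨C, r, hC, hr, hr1, hb⟩ := hp
  obtain ⟨N, hN⟩ := eventually_atTop.1 h
  refine ⟨C + (r ^ N)⁻¹, r, by positivity, hr, hr1, fun i n => ?_⟩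
  rcases le_or_gt N n with hn | hn
  · refine ((hN n hn i).trans (hb i n)).trans (ENNReal.ofReal_le_ofReal ?_)
    exact mul_le_mul_of_nonneg_right (le_add_of_nonneg_right (by positivity)) (by positivity)
  · refine (h1 i n).trans (ENNReal.one_le_ofReal.2 ?_)
    have e : 1 ≤ (r ^ N)⁻¹ * r ^ n := by
      rw [inv_mul_eq_div, le_div_iff₀ (by positivity), one_mul]
      exact pow_le_pow_of_le_one hr.le hr1.le hn.le
    calc (1 : ℝ) ≤ (r ^ N)⁻¹ * r ^ n := e
      _ ≤ _ := mul_le_mul_of_nonneg_right (le_add_of_nonneg_left hC) (by positivity)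

variable {E : Type*} [NormedAddCommGroup E] [InnerProductSpace ℝ E] [FiniteDimensional ℝ E]
  [MeasurableSpace E] [BorelSpace E] [Nontrivial E]

variable {μ : Measure (E →L[ℝ] E)} [IsProbabilityMeasure μ] {ε : ℝ}

/-- **A negative mean over a block gives exponential decay.** -/
theorem decays_of_mean_neg (hμ : ∀ᵐ A ∂μ, A ∈ unitDet E) (hε : 0 < ε) (hexp : ExpMoment μ ε)
    {ι : Type*} [MeasurableSpace ι] (X : ℕ → (E →L[ℝ] E) → ι → ℝ)
    (T : (E →L[ℝ] E) → ι → ι)
    (hXm : ∀ n, Measurable fun p : (E →L[ℝ] E) × ι => X n p.1 p.2)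
    (hT : ∀ i, Measurable fun A => T A i)
    (hadd : ∀ (m n : ℕ) (A B : E →L[ℝ] E), A ∈ unitDet E → B ∈ unitDet E → ∀ i,
      X (m + n) (B * A) i ≤ X m A i + X n B (T A i))
    {b : ℝ} (hb : 0 ≤ b)
    (hbd : ∀ n, ∃ a, 0 ≤ a ∧ ∀ A ∈ unitDet E, ∀ i, |X n A i| ≤ a + b * Real.log ‖A‖)
    {n₀ : ℕ} (hn₀ : 0 < n₀) (hmean : ∀ i, ∫ A, X n₀ A i ∂(blockLaw μ n₀) ≤ -1) :
    Decays fun i n => (Measure.infinitePi fun _ : ℕ => μ) {x | 0 ≤ X n (randProd n x) i} := by
  set π := Measure.infinitePi fun _ : ℕ => μ with hπ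
  choose a ha hX using hbd
  have hXi : ∀ n i, Measurable fun A => X n A i := fun n i =>
    (hXm n).comp (measurable_id.prodMk measurable_const)
  obtain ⟨α, r₀, hα, hαle, hr₀, hr₁, hexp₀⟩ := exists_exp_moment_lt_one
    (blockLaw_unitDet μ hμ n₀) hε (expMoment_blockLaw hμ hε.le hexp n₀)
    (fun i A => X n₀ A i) (hXi n₀) (ha n₀) hb (fun i A hA => hX n₀ A hA i) hmean
    (α₀ := ε / (b + 1)) (by positivity)
  have hαb : α * b ≤ ε := by
    rw [le_div_iff₀ (by positivity)] at hαle
    nlinarith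
  set D : ℕ → ι → ℝ≥0∞ := fun n i =>
    ∫⁻ A, ENNReal.ofReal (Real.exp (α * X n A i)) ∂(blockLaw μ n) with hD
  set M : ℕ → ℝ := fun j => Real.exp (α * a j) * ∫ A, ‖A‖ ^ ε ∂(blockLaw μ j)
  have hM : ∀ j, 0 ≤ M j := fun j => mul_nonneg (Real.exp_pos _).le
    (integral_nonneg fun A => Real.rpow_nonneg (norm_nonneg A) _)
  have hfirst : ∀ j i, D j i ≤ ENNReal.ofReal (M j) := by
    intro j i
    have hi := (expMoment_blockLaw hμ hε.le hexp j).const_mul (Real.exp (α * a j))
    refine le_trans ?_ ((ofReal_integral_eq_lintegral_ofReal hi (.of_forall fun A => by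
      positivity)).symm.trans_le (le_of_eq (by rw [integral_const_mul])))
    refine lintegral_mono_ae ((blockLaw_unitDet μ hμ j).mono fun A hA => ?_)
    refine ENNReal.ofReal_le_ofReal ?_
    rw [Real.rpow_def_of_pos (one_pos.trans_le (one_le_norm hA)), ← Real.exp_add]
    refine Real.exp_le_exp.2 ?_
    have e1 := mul_le_mul_of_nonneg_left ((le_abs_self _).trans (hX j A hA i)) hα.le
    have e2 := mul_le_mul_of_nonneg_right hαb (Real.log_nonneg (one_le_norm hA))
    linarith
  have hDx : ∀ n i, D n i =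
      ∫⁻ x, ENNReal.ofReal (Real.exp (α * X n (randProd n x) i)) ∂π := fun n i =>
    lintegral_map (ENNReal.measurable_ofReal.comp
      (Real.measurable_exp.comp ((hXi n i).const_mul α))) (measurable_randProd n)
  have hstep : ∀ m n i, D (m + n) i ≤
      ∫⁻ A, ENNReal.ofReal (Real.exp (α * X m A i)) * D n (T A i) ∂(blockLaw μ m) := by
    intro m n i
    set f : (E →L[ℝ] E) × (ℕ → E →L[ℝ] E) → ℝ≥0∞ := fun p =>
      ENNReal.ofReal (Real.exp (α * X m p.1 i)) *
        ENNReal.ofReal (Real.exp (α * X n (randProd n p.2) (T p.1 i)))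
    have hf : Measurable f := (ENNReal.measurable_ofReal.comp (Real.measurable_exp.comp
      (((hXi m i).comp measurable_fst).const_mul α))).mul
      (ENNReal.measurable_ofReal.comp (Real.measurable_exp.comp (((hXm n).comp
        (((measurable_randProd n).comp measurable_snd).prodMk
          ((hT i).comp measurable_fst))).const_mul α)))
    calc D (m + n) i ≤ ∫⁻ x, f (randProd m x, shift^[m] x) ∂π := by
          rw [hDx]
          refine lintegral_mono_ae ((ae_all_unitDet μ hμ).mono fun x hx => ?_)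
          have hy : ∀ k, (shift^[m] x) k ∈ unitDet E := fun k => by
            rw [shift_iterate_apply]; exact hx _
          rw [randProd_add]
          simp only [f, ← ENNReal.ofReal_mul (Real.exp_pos _).le, ← Real.exp_add, ← mul_add]
          exact ENNReal.ofReal_le_ofReal (Real.exp_le_exp.2 (mul_le_mul_of_nonneg_left
            (hadd m n _ _ (randProd_mem_unitDet hx m) (randProd_mem_unitDet hy n) i) hα.le))
      _ = ∫⁻ p, f p ∂((blockLaw μ m).prod π) := by
          rw [blockLaw, ← map_block μ m,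
            lintegral_map hf ((measurable_randProd m).prodMk (measurable_shift.iterate m))]
      _ = ∫⁻ A, ∫⁻ y, f (A, y) ∂π ∂(blockLaw μ m) := lintegral_prod f hf.aemeasurable
      _ = _ := lintegral_congr fun A => by
          simp only [f, hDx]
          rw [lintegral_const_mul' _ _ ENNReal.ofReal_ne_top]
  have hblock : ∀ (q j : ℕ) (i : ι),
      D (n₀ * q + j) i ≤ ENNReal.ofReal (r₀ ^ q * M j) := by
    intro q j
    induction q with
    | zero => intro i; rw [mul_zero, zero_add, pow_zero, one_mul]; exact hfirst j i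
    | succ q ih =>
      intro i
      rw [show n₀ * (q + 1) + j = n₀ + (n₀ * q + j) by ring]
      refine (hstep _ _ i).trans ((lintegral_mono fun A => mul_le_mul' le_rfl (ih _)).trans ?_)
      rw [lintegral_mul_const' _ _ ENNReal.ofReal_ne_top,
        show r₀ ^ (q + 1) * M j = r₀ * (r₀ ^ q * M j) by ring, ENNReal.ofReal_mul hr₀.le]
      exact mul_le_mul' (hexp₀ i) le_rfl
  set r := r₀ ^ ((n₀ : ℝ)⁻¹)
  have hr : 0 < r := Real.rpow_pos_of_pos hr₀ _
  have hrn : r ^ n₀ = r₀ := Real.rpow_inv_natCast_pow hr₀.le hn₀.ne'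
  have hr1 : r < 1 := Real.rpow_lt_one hr₀.le hr₁ (by positivity)
  refine ⟨(∑ j ∈ Finset.range n₀, M j) / r₀, r,
    div_nonneg (Finset.sum_nonneg fun j _ => hM j) hr₀.le, hr, hr1, fun i n => ?_⟩
  have hm : Measurable fun x => ENNReal.ofReal (Real.exp (α * X n (randProd n x) i)) :=
    ENNReal.measurable_ofReal.comp (Real.measurable_exp.comp
      (((hXi n i).comp (measurable_randProd n)).const_mul α))
  refine (measure_mono (fun x (hx : 0 ≤ X n (randProd n x) i) => ENNReal.one_le_ofReal.2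
    (Real.one_le_exp (mul_nonneg hα.le hx)))).trans ?_
  refine ((one_mul _).symm.trans_le (mul_meas_ge_le_lintegral hm 1)).trans ?_
  rw [← hDx]
  have h := hblock (n / n₀) (n % n₀) i
  rw [Nat.div_add_mod] at h
  refine h.trans (ENNReal.ofReal_le_ofReal ?_)
  have hMj : M (n % n₀) ≤ ∑ j ∈ Finset.range n₀, M j :=
    Finset.single_le_sum (fun j _ => hM j) (Finset.mem_range.2 (Nat.mod_lt _ hn₀))
  have hq : r₀ ^ (n / n₀) ≤ r ^ n / r₀ := by
    rw [le_div_iff₀ hr₀]
    calc r₀ ^ (n / n₀) * r₀ ≤ r₀ ^ (n / n₀) * r ^ (n % n₀) :=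
          mul_le_mul_of_nonneg_left (hrn ▸ pow_le_pow_of_le_one hr.le hr1.le
            (Nat.mod_lt _ hn₀).le) (pow_nonneg hr₀.le _)
      _ = r ^ n := by rw [← hrn, ← pow_mul, ← pow_add, Nat.div_add_mod]
  calc r₀ ^ (n / n₀) * M (n % n₀) ≤ r ^ n / r₀ * ∑ j ∈ Finset.range n₀, M j :=
        mul_le_mul hq hMj (hM _) (div_nonneg (pow_nonneg hr.le n) hr₀.le)
    _ = _ := by ring

end FA.ProjectiveRegularity
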