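import Fermat.Agent.ProjectiveRegularity.Decay
import Fermat.Agent.GuivarchRaugi.Simplicity

/-!
# Large deviations

The growth of every vector, of the norm and of the product of the two greatest singular values
leaves its rate only with exponentially small probability.
-/

set_option autoImplicit false

noncomputable section

namespace FA.ProjectiveRegularity

open MeasureTheory Filter Topology Module Set
open FA.FurstenbergLyapunov FA.FurstenbergKifer FA.GuivarchRaugi FA.LePage
open ContinuousLinearMap (adjoint)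
open scoped ENNReal

variable {E : Type*} [NormedAddCommGroup E] [InnerProductSpace ℝ E] [FiniteDimensional ℝ E]
  [MeasurableSpace E] [BorelSpace E] [Nontrivial E]

variable {μ : Measure (E →L[ℝ] E)} [IsProbabilityMeasure μ] {ε γ η : ℝ}

/-- **Large deviations for one vector.** -/
theorem decays_apply (hμ : ∀ᵐ A ∂μ, A ∈ unitDet E) (hsi : StronglyIrreducible μ.support)
    (hε : 0 < ε) (hexp : ExpMoment μ ε)
    (hγ : ∀ᵐ x ∂(Measure.infinitePi fun _ : ℕ => μ),
      Tendsto (fun n : ℕ => Real.log ‖randProd n x‖ / n) atTop (𝓝 γ)) (hη : 0 < η) :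
    Decays fun (v : Sph E) n => (Measure.infinitePi fun _ : ℕ => μ)
      {x | (n : ℝ) * η ≤ |Real.log ‖randProd n x (v : E)‖ - n * γ|} := by
  have hint := integrable_log_norm hμ hε hexp
  obtain ⟨C, hC0, hC⟩ := exists_abs_log_apply_le (E := E)
  obtain ⟨n₀, hn₀, hn₀0, hn₀2⟩ := ((uniform_mean_growth μ hμ hsi hint hγ (half_pos hη)).and
    ((eventually_gt_atTop 0).and
      (tendsto_natCast_atTop_atTop.eventually_ge_atTop (2 / η)))).exists
  have hn' : (0 : ℝ) < n₀ := Nat.cast_pos.2 hn₀0
  rw [div_le_iff₀ hη] at hn₀2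
  have key : ∀ s c : ℝ, |s| = 1 → c = n₀ * (s * γ + η) →
      Decays fun (v : Sph E) n => (Measure.infinitePi fun _ : ℕ => μ)
        {x | 0 ≤ s * Real.log ‖randProd n x (v : E)‖ - n * (s * γ + η)} := by
    intro s c hs hc
    refine decays_of_mean_neg hμ hε hexp
      (fun n A (v : Sph E) => s * Real.log ‖A (v : E)‖ - n * (s * γ + η)) act
      (fun n => ((measurable_log_apply measurable_fst
        (measurable_subtype_coe.comp measurable_snd)).const_mul s).sub_const _)
      (fun v => measurable_act_pair measurable_id measurable_const)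
      (fun m n A B hA hB v => ?_) (b := finrank ℝ E) (Nat.cast_nonneg _)
      (fun n => ⟨C + |(n : ℝ) * (s * γ + η)|, by positivity, fun A hA v => ?_⟩) hn₀0 fun v => ?_
    · rw [log_apply_act hA hB v, Nat.cast_add]
      exact le_of_eq (by ring)
    · have h := hC A hA v (norm_eq_of_mem_sphere v)
      refine (abs_sub _ _).trans ?_
      rw [abs_mul s, hs, one_mul]
      linarith
    · have hm : Measurable fun A : E →L[ℝ] E =>
          s * Real.log ‖A (v : E)‖ - n₀ * (s * γ + η) :=
        ((measurable_log_apply measurable_id measurable_const).const_mul s).sub_const _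
      rw [blockLaw, integral_map (measurable_randProd n₀).aemeasurable hm.aestronglyMeasurable,
        integral_sub (f := fun x => s * Real.log ‖randProd n₀ x (v : E)‖)
          (g := fun _ => (n₀ : ℝ) * (s * γ + η))
          ((integrable_log_randProd_apply hμ hint n₀ v).const_mul s) (integrable_const _),
        integral_const_mul, integral_const, probReal_univ, one_smul]
      have h := abs_le.1 (hn₀ v)
      rw [le_sub_iff_add_le, sub_le_iff_le_add, le_div_iff₀ hn', div_le_iff₀ hn'] at h
      rcases eq_or_eq_neg_of_abs_eq hs with rfl | rfl <;> nlinarith [h.1, h.2]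
  refine ((key 1 _ abs_one rfl).add (key (-1) _ (by simp) rfl)).mono fun v n => ?_
  refine (measure_mono fun x (hx : (n : ℝ) * η ≤ _) => ?_).trans (measure_union_le _ _)
  rcases le_abs.1 hx with h | h
  · refine Or.inl ?_
    show (0 : ℝ) ≤ _
    linarith
  · refine Or.inr ?_
    show (0 : ℝ) ≤ _
    linarith

/-- A subadditive quantity stays below its rate. -/
theorem decays_subadditive (hμ : ∀ᵐ A ∂μ, A ∈ unitDet E) (hε : 0 < ε) (hexp : ExpMoment μ ε)
    (Φ : (E →L[ℝ] E) → ℝ) (hΦm : Measurable Φ)
    (hΦb : ∀ A ∈ unitDet E, |Φ A| ≤ 2 * Real.log ‖A‖)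
    (hΦadd : ∀ A B : E →L[ℝ] E, A ∈ unitDet E → B ∈ unitDet E → Φ (B * A) ≤ Φ A + Φ B)
    (hΦi : ∀ n, Integrable (fun x => Φ (randProd n x)) (Measure.infinitePi fun _ : ℕ => μ))
    {L : ℝ} (hlim : Tendsto (fun n : ℕ =>
      (∫ x, Φ (randProd n x) ∂(Measure.infinitePi fun _ : ℕ => μ)) / n) atTop (𝓝 L))
    (hη : 0 < η) :
    Decays fun (_ : Unit) n => (Measure.infinitePi fun _ : ℕ => μ)
      {x | (n : ℝ) * (L + η) ≤ Φ (randProd n x)} := by
  obtain ⟨n₀, hn₀, hn₀0, hn₀2⟩ := ((hlim.eventually_le_const
    (lt_add_of_pos_right L (half_pos hη))).and ((eventually_gt_atTop 0).and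
      (tendsto_natCast_atTop_atTop.eventually_ge_atTop (2 / η)))).exists
  rw [div_le_iff₀ hη] at hn₀2
  rw [div_le_iff₀ (Nat.cast_pos.2 hn₀0)] at hn₀
  refine (decays_of_mean_neg hμ hε hexp (ι := Unit) (fun n A _ => Φ A - n * (L + η))
    (fun _ i => i) (fun n => (hΦm.comp measurable_fst).sub_const _) (fun _ => measurable_const)
    (fun m n A B hA hB _ => ?_) (b := 2) zero_le_two
    (fun n => ⟨|(n : ℝ) * (L + η)|, abs_nonneg _, fun A hA _ => ?_⟩) hn₀0 fun _ => ?_).mono
      fun _ n => measure_mono fun x (hx : (n : ℝ) * (L + η) ≤ _) => ?_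
  · rw [Nat.cast_add]
    linarith [hΦadd A B hA hB]
  · refine (abs_sub _ _).trans ?_
    linarith [hΦb A hA]
  · rw [blockLaw, integral_map (measurable_randProd n₀).aemeasurable
      (hΦm.sub_const _).aestronglyMeasurable,
      integral_sub (f := fun x => Φ (randProd n₀ x)) (g := fun _ => (n₀ : ℝ) * (L + η)) (hΦi n₀)
        (integrable_const _), integral_const, probReal_univ, one_smul]
    nlinarith
  · exact sub_nonneg.2 hx

/-- **The norm stays below the exponent.** -/
theorem decays_norm (hd : 2 ≤ finrank ℝ E) (hμ : ∀ᵐ A ∂μ, A ∈ unitDet E)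
    (hsi : StronglyIrreducible μ.support) (hprox : Proximal μ.support) (hε : 0 < ε)
    (hexp : ExpMoment μ ε)
    (hγ : ∀ᵐ x ∂(Measure.infinitePi fun _ : ℕ => μ),
      Tendsto (fun n : ℕ => Real.log ‖randProd n x‖ / n) atTop (𝓝 γ)) (hη : 0 < η) :
    Decays fun (_ : Unit) n => (Measure.infinitePi fun _ : ℕ => μ)
      {x | (n : ℝ) * (γ + η) ≤ Real.log ‖randProd n x‖} := by
  have hint := integrable_log_norm hμ hε hexp
  obtain ⟨γ', -, hγ', hmean⟩ := exists_exponent μ hμ (unbounded_of_proximal hd
    (Measure.support_subset_of_isClosed isClosed_unitDet hμ) hprox) hsi hint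
  obtain ⟨x, h1, h2⟩ := (hγ.and hγ').exists
  obtain rfl := tendsto_nhds_unique h1 h2
  refine decays_subadditive hμ hε hexp (fun A => Real.log ‖A‖)
    (Real.measurable_log.comp continuous_norm.measurable) (fun A hA => ?_) (fun A B hA hB => ?_)
    (integrable_log_randProd μ hμ hint) hmean hη
  · have h := Real.log_nonneg (one_le_norm hA)
    rw [abs_of_nonneg h]
    linarith
  · have hA0 := one_pos.trans_le (one_le_norm hA)
    have hB0 := one_pos.trans_le (one_le_norm hB)
    rw [← Real.log_mul hA0.ne' hB0.ne', mul_comm ‖A‖]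
    exact Real.log_le_log (one_pos.trans_le (one_le_norm (mul_mem_unitDet hB hA)))
      (norm_mul_le B A)

omit [MeasurableSpace E] [BorelSpace E] [Nontrivial E] in
theorem logPair_mul_le (hd : 2 ≤ finrank ℝ E) {A B : E →L[ℝ] E} (hA : A ∈ unitDet E)
    (hB : B ∈ unitDet E) : logPair (B * A) ≤ logPair A + logPair B := by
  have hA1 := one_pos.trans_le (one_le_topProd_two hd hA)
  have hB1 := one_pos.trans_le (one_le_topProd_two hd hB)
  rw [logPair, logPair, logPair, add_comm, ← Real.log_mul hB1.ne' hA1.ne']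
  exact Real.log_le_log (one_pos.trans_le (one_le_topProd_two hd (mul_mem_unitDet hB hA)))
    (FA.Oseledets.topProd_comp_le hd (injective_of_unitDet hA) _)

/-- **The two greatest singular values stay below their rate.** -/
theorem decays_pair (hd : 2 ≤ finrank ℝ E) (hμ : ∀ᵐ A ∂μ, A ∈ unitDet E) (hε : 0 < ε)
    (hexp : ExpMoment μ ε) {l : ℝ}
    (hγ : ∀ᵐ x ∂(Measure.infinitePi fun _ : ℕ => μ),
      Tendsto (fun n : ℕ => Real.log ‖randProd n x‖ / n) atTop (𝓝 γ))
    (hl : ∀ᵐ x ∂(Measure.infinitePi fun _ : ℕ => μ),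
      Tendsto (fun n : ℕ => Real.log ((randProd n x : E →ₗ[ℝ] E).singularValues 1) / n) atTop
        (𝓝 l)) (hη : 0 < η) :
    Decays fun (_ : Unit) n => (Measure.infinitePi fun _ : ℕ => μ)
      {x | (n : ℝ) * (γ + l + η) ≤ logPair (randProd n x)} := by
  have hint := integrable_log_norm hμ hε hexp
  obtain ⟨L, hL, hLm⟩ := exists_pair_exponent μ hd hμ hint
  obtain ⟨x, ⟨⟨h1, h2⟩, h3⟩, hx⟩ :=
    (((hγ.and hl).and hL).and (ae_all_unitDet μ hμ)).exists
  obtain rfl : L = γ + l := tendsto_nhds_unique h3 ((h1.add h2).congr fun n => by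
    rw [(logPair_bounds hd (randProd_mem_unitDet hx n)).2.2, add_div])
  refine decays_subadditive hμ hε hexp logPair measurable_logPair (fun A hA => ?_)
    (fun A B => logPair_mul_le hd) (integrable_logPair_randProd μ hd hμ hint) hLm hη
  obtain ⟨e1, e2, -⟩ := logPair_bounds hd hA
  rwa [abs_of_nonneg e1]

/-! ### The adjoint walk -/

omit [MeasurableSpace E] [BorelSpace E] [Nontrivial E] in
theorem blockLaw_succ (n : ℕ) :
    blockLaw μ (n + 1) = ((blockLaw μ n).prod μ).map (fun p => p.2 * p.1) := by
  set π := Measure.infinitePi fun _ : ℕ => μ with hπ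
  have hg : Measurable fun p : (E →L[ℝ] E) × (ℕ → E →L[ℝ] E) => (p.1, p.2 0) :=
    measurable_fst.prodMk ((measurable_pi_apply 0).comp measurable_snd)
  have hm : Measurable fun p : (E →L[ℝ] E) × (E →L[ℝ] E) => p.2 * p.1 :=
    continuous_mul.measurable.comp (measurable_snd.prodMk measurable_fst)
  have h1 : ((blockLaw μ n).prod π).map (fun p => (p.1, p.2 0)) = (blockLaw μ n).prod μ := by
    have := Measure.map_prod_map (blockLaw μ n) π (f := id)
      (g := fun x : ℕ → E →L[ℝ] E => x 0) measurable_id (measurable_pi_apply 0)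
    rw [Measure.map_id, (measurePreserving_eval_infinitePi (fun _ : ℕ => μ) 0).map_eq] at this
    exact this.symm
  rw [← h1, Measure.map_map hm hg, blockLaw, blockLaw, ← map_block μ n, ← hπ,
    Measure.map_map (hm.comp hg) ((measurable_randProd n).prodMk (measurable_shift.iterate n))]
  congr 1
  funext x
  simp only [Function.comp_apply, shift_iterate_apply, zero_add, randProd_succ']

omit [MeasurableSpace E] [BorelSpace E] [Nontrivial E] in
theorem blockLaw_succ_swap (n : ℕ) :
    blockLaw μ (n + 1) = ((blockLaw μ n).prod μ).map (fun p => p.1 * p.2) := by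
  set π := Measure.infinitePi fun _ : ℕ => μ with hπ
  have hg : Measurable fun p : (E →L[ℝ] E) × (ℕ → E →L[ℝ] E) => (randProd n p.2, p.1) :=
    ((measurable_randProd n).comp measurable_snd).prodMk measurable_fst
  have hm : Measurable fun p : (E →L[ℝ] E) × (E →L[ℝ] E) => p.1 * p.2 :=
    continuous_mul.measurable.comp (measurable_fst.prodMk measurable_snd)
  have h1 : (μ.prod π).map (fun p => (randProd n p.2, p.1)) = (blockLaw μ n).prod μ := by
    rw [← Measure.prod_swap (μ := μ) (ν := blockLaw μ n)]
    have := Measure.map_prod_map μ π (f := id) (g := randProd (E := E) n) measurable_id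
      (measurable_randProd n)
    rw [Measure.map_id] at this
    rw [blockLaw, this, Measure.map_map measurable_swap
      (measurable_id.prodMap (measurable_randProd n))]
    rfl
  rw [← h1, Measure.map_map hm hg, hπ, ← map_split_infinitePi μ, ← hπ,
    Measure.map_map (hm.comp hg) ((measurable_pi_apply 0).prodMk measurable_shift), blockLaw]
  congr 1

omit [MeasurableSpace E] [BorelSpace E] [Nontrivial E] in
/-- The adjoint of the product has the law of the product of the adjoints. -/
theorem blockLaw_adjLaw (n : ℕ) :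
    blockLaw (adjLaw μ) n = (blockLaw μ n).map (fun A => adjoint A) := by
  induction n with
  | zero =>
    rw [blockLaw, blockLaw, Measure.map_map continuous_adjoint.measurable (measurable_randProd 0)]
    have h : (fun A : E →L[ℝ] E => adjoint A) ∘ randProd 0 = fun _ => 1 :=
      funext fun x => ContinuousLinearMap.adjoint_one
    rw [h, Measure.map_const, show (randProd (E := E) 0) = fun _ => 1 from rfl, Measure.map_const,
      measure_univ, measure_univ]
  | succ n ih =>
    have hadj : Measurable fun A : E →L[ℝ] E => adjoint A := continuous_adjoint.measurable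
    have hm₁ : Measurable fun p : (E →L[ℝ] E) × (E →L[ℝ] E) => p.2 * p.1 :=
      continuous_mul.measurable.comp (measurable_snd.prodMk measurable_fst)
    have hm₂ : Measurable fun p : (E →L[ℝ] E) × (E →L[ℝ] E) => p.1 * p.2 :=
      continuous_mul.measurable.comp (measurable_fst.prodMk measurable_snd)
    rw [blockLaw_succ_swap, blockLaw_succ (μ := μ), ih, adjLaw,
      Measure.map_prod_map _ _ hadj hadj,
      Measure.map_map hadj hm₁, Measure.map_map hm₂ (hadj.prodMap hadj)]
    congr 1
    funext p
    simp [adjoint_mul]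

omit [MeasurableSpace E] [BorelSpace E] [Nontrivial E] [IsProbabilityMeasure μ] in
theorem expMoment_adjLaw (hexp : ExpMoment μ ε) : ExpMoment (adjLaw μ) ε :=
  (integrable_map_measure (measurable_norm_rpow ε).aestronglyMeasurable
    continuous_adjoint.measurable.aemeasurable).2
    (hexp.congr (.of_forall fun A => by simp))

/-- The adjoints have the same exponent. -/
theorem adjoint_exponent (hd : 2 ≤ finrank ℝ E) (hμ : ∀ᵐ A ∂μ, A ∈ unitDet E)
    (hsi : StronglyIrreducible μ.support) (hprox : Proximal μ.support) (hε : 0 < ε)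
    (hexp : ExpMoment μ ε)
    (hγ : ∀ᵐ x ∂(Measure.infinitePi fun _ : ℕ => μ),
      Tendsto (fun n : ℕ => Real.log ‖randProd n x‖ / n) atTop (𝓝 γ)) :
    ∀ᵐ x ∂(Measure.infinitePi fun _ : ℕ => adjLaw μ),
      Tendsto (fun n : ℕ => Real.log ‖randProd n x‖ / n) atTop (𝓝 γ) := by
  have hμ' := adjLaw_unitDet μ hμ
  have hun' := unbounded_of_proximal hd
    (Measure.support_subset_of_isClosed isClosed_unitDet hμ') (adjLaw_proximal μ hprox)
  obtain ⟨γ₁, -, hγ₁, hm₁⟩ := exists_exponent μ hμ (unbounded_of_proximal hd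
    (Measure.support_subset_of_isClosed isClosed_unitDet hμ) hprox) hsi
    (integrable_log_norm hμ hε hexp)
  obtain ⟨γ₂, -, hγ₂, hm₂⟩ := exists_exponent (adjLaw μ) hμ' hun'
    (adjLaw_stronglyIrreducible μ hμ hsi) (integrable_log_norm hμ' hε (expMoment_adjLaw hexp))
  obtain ⟨x, h1, h2⟩ := (hγ.and hγ₁).exists
  obtain rfl := tendsto_nhds_unique h1 h2
  have hlog : Measurable fun A : E →L[ℝ] E => Real.log ‖A‖ :=
    Real.measurable_log.comp continuous_norm.measurable
  obtain rfl : γ₂ = γ := by
    refine tendsto_nhds_unique hm₂ (hm₁.congr fun n => ?_)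
    congr 1
    rw [← integral_map (φ := randProd n) (f := fun A : E →L[ℝ] E => Real.log ‖A‖)
      (measurable_randProd n).aemeasurable hlog.aestronglyMeasurable,
      ← integral_map (φ := randProd n) (f := fun A : E →L[ℝ] E => Real.log ‖A‖)
      (measurable_randProd n).aemeasurable hlog.aestronglyMeasurable]
    change ∫ A, Real.log ‖A‖ ∂(blockLaw μ n) = ∫ A, Real.log ‖A‖ ∂(blockLaw (adjLaw μ) n)
    rw [blockLaw_adjLaw, integral_map continuous_adjoint.measurable.aemeasurable
      hlog.aestronglyMeasurable]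
    simp only [norm_adjoint]
  exact hγ₂

/-- **Large deviations for one vector under the adjoint.** -/
theorem decays_adjoint (hd : 2 ≤ finrank ℝ E) (hμ : ∀ᵐ A ∂μ, A ∈ unitDet E)
    (hsi : StronglyIrreducible μ.support) (hprox : Proximal μ.support) (hε : 0 < ε)
    (hexp : ExpMoment μ ε)
    (hγ : ∀ᵐ x ∂(Measure.infinitePi fun _ : ℕ => μ),
      Tendsto (fun n : ℕ => Real.log ‖randProd n x‖ / n) atTop (𝓝 γ)) (hη : 0 < η) :
    Decays fun (v : Sph E) n => (Measure.infinitePi fun _ : ℕ => μ)
      {x | (n : ℝ) * η ≤ |Real.log ‖adjoint (randProd n x) (v : E)‖ - n * γ|} := by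
  refine (decays_apply (adjLaw_unitDet μ hμ) (adjLaw_stronglyIrreducible μ hμ hsi) hε
    (expMoment_adjLaw hexp) (adjoint_exponent hd hμ hsi hprox hε hexp hγ) hη).mono fun v n => ?_
  set S := {A : E →L[ℝ] E | (n : ℝ) * η ≤ |Real.log ‖A (v : E)‖ - n * γ|}
  have hS : MeasurableSet S := measurableSet_le measurable_const
    (continuous_abs.measurable.comp
      ((measurable_log_apply measurable_id measurable_const).sub_const _))
  refine le_of_eq ?_
  calc (Measure.infinitePi fun _ : ℕ => μ) ((fun x => adjoint (randProd n x)) ⁻¹' S)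
      = blockLaw (adjLaw μ) n S := by
        rw [blockLaw_adjLaw, blockLaw, Measure.map_map continuous_adjoint.measurable
          (measurable_randProd n), Measure.map_apply
            (continuous_adjoint.measurable.comp (measurable_randProd n)) hS]
        rfl
    _ = _ := by rw [blockLaw, Measure.map_apply (measurable_randProd n) hS]; rfl

end FA.ProjectiveRegularity
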