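import Fermat.Agent.ProjectiveRegularity.Deviation

/-!
# The image of a direction stays away from every hyperplane

In the singular basis `⟪y, A v⟫` differs from the product of the first coordinates by at most
twice the second singular value.
-/

set_option autoImplicit false

noncomputable section

namespace FA.ProjectiveRegularity

open MeasureTheory Filter Topology Module Set
open FA.FurstenbergLyapunov FA.FurstenbergKifer FA.GuivarchRaugi FA.LePage
open ContinuousLinearMap (adjoint adjoint_inner_left)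
open scoped ENNReal RealInnerProductSpace

variable {E : Type*} [NormedAddCommGroup E] [InnerProductSpace ℝ E] [FiniteDimensional ℝ E]
  [MeasurableSpace E] [BorelSpace E] [Nontrivial E]

omit [MeasurableSpace E] [BorelSpace E] [Nontrivial E] in
/-- Off the first singular vector an operator is bounded by the second singular value. -/
theorem norm_map_le_of_orthogonal (hd : 1 < finrank ℝ E) (A : E →L[ℝ] E) {w : E}
    (hw : ⟪FA.Oseledets.svBasis (A : E →ₗ[ℝ] E) ⟨0, by omega⟩, w⟫ = 0) :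
    ‖A w‖ ≤ (A : E →ₗ[ℝ] E).singularValues 1 * ‖w‖ := by
  set b := FA.Oseledets.svBasis (A : E →ₗ[ℝ] E)
  have hσ := LinearMap.singularValues_nonneg (A : E →ₗ[ℝ] E)
  refine (sq_le_sq₀ (norm_nonneg _) (mul_nonneg (hσ _) (norm_nonneg _))).1 ?_
  rw [← ContinuousLinearMap.coe_coe, FA.Oseledets.norm_sq_map, mul_pow,
    ← b.sum_sq_inner_right w, Finset.mul_sum]
  refine Finset.sum_le_sum fun i _ => ?_
  rcases Nat.eq_zero_or_pos i.val with hi | hi
  · have h0 : ⟪b i, w⟫ = 0 := by rw [show i = ⟨0, by omega⟩ from Fin.ext hi]; exact hw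
    simp [b, h0]
  · exact mul_le_mul_of_nonneg_right (pow_le_pow_left₀ (hσ _)
      ((A : E →ₗ[ℝ] E).singularValues_antitone hi) 2) (sq_nonneg _)

/-- **The product of the first coordinates up to the second singular value.** -/
theorem mul_sub_le_abs_inner (hd : 1 < finrank ℝ E) {A : E →L[ℝ] E} (hA : A ∈ unitDet E)
    (v y : Sph E) (hy : (A : E →ₗ[ℝ] E).singularValues 1 ≤ ‖adjoint A (y : E)‖) :
    (‖A (v : E)‖ - (A : E →ₗ[ℝ] E).singularValues 1) / ‖A‖ *
        (‖adjoint A (y : E)‖ - (A : E →ₗ[ℝ] E).singularValues 1) -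
      (A : E →ₗ[ℝ] E).singularValues 1 ≤ |⟪(y : E), A (v : E)⟫| := by
  set σ := (A : E →ₗ[ℝ] E).singularValues 1
  set u := FA.Oseledets.svBasis (A : E →ₗ[ℝ] E) ⟨0, by omega⟩
  have hu : ‖u‖ = 1 := (FA.Oseledets.svBasis (A : E →ₗ[ℝ] E)).orthonormal.1 _
  have hσ : 0 ≤ σ := LinearMap.singularValues_nonneg _ _
  have hA0 : 0 < ‖A‖ := one_pos.trans_le (one_le_norm hA)
  -- a vector splits along `u`
  have hsplit : ∀ w : E, ‖w‖ = 1 →
      |⟪u, w⟫| ≤ 1 ∧ ‖A (w - ⟪u, w⟫ • u)‖ ≤ σ ∧ A w = ⟪u, w⟫ • A u + A (w - ⟪u, w⟫ • u) := by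
    intro w hw
    have hw1 : |⟪u, w⟫| ≤ 1 := (abs_real_inner_le_norm u w).trans_eq (by rw [hu, hw, one_mul])
    refine ⟨hw1, ?_, by rw [map_sub, map_smul, add_sub_cancel]⟩
    have hperp : ⟪u, w - ⟪u, w⟫ • u⟫ = 0 := by
      rw [inner_sub_right, real_inner_smul_right, real_inner_self_eq_norm_sq, hu]
      ring
    refine (norm_map_le_of_orthogonal hd A hperp).trans (mul_le_of_le_one_right hσ ?_)
    refine (sq_le_sq₀ (norm_nonneg _) zero_le_one).1 ?_
    rw [norm_sub_sq_real, real_inner_smul_right, norm_smul, hu, hw, mul_one, Real.norm_eq_abs,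
      sq_abs, real_inner_comm u w]
    nlinarith [sq_nonneg ⟪u, w⟫]
  obtain ⟨hc, hr, hAv⟩ := hsplit v (norm_eq_of_mem_sphere v)
  -- the first coordinate of `v`
  have hc' : ‖A (v : E)‖ - σ ≤ |⟪u, (v : E)⟫| * ‖A‖ := by
    have h : ‖A (v : E)‖ ≤ |⟪u, (v : E)⟫| * ‖A u‖ + ‖A ((v : E) - ⟪u, (v : E)⟫ • u)‖ := by
      conv_lhs => rw [hAv]
      exact (norm_add_le _ _).trans_eq (by rw [norm_smul, Real.norm_eq_abs])
    have hAu : ‖A u‖ ≤ ‖A‖ := (A.le_opNorm u).trans_eq (by rw [hu, mul_one])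
    have := mul_le_mul_of_nonneg_left hAu (abs_nonneg ⟪u, (v : E)⟫)
    linarith
  -- the first coordinate of `y`
  have hy' : ‖adjoint A (y : E)‖ - σ ≤ |⟪(y : E), A u⟫| := by
    have hne := apply_ne_zero (adjoint_mem_unitDet hA) (sph_ne_zero y)
    set w : E := ‖adjoint A (y : E)‖⁻¹ • adjoint A (y : E) with hwdef
    obtain ⟨hw1, hw2, hAw⟩ := hsplit w (norm_smul_inv_norm hne)
    have e : ‖adjoint A (y : E)‖ = ⟪(y : E), A w⟫ := by
      rw [← adjoint_inner_left, hwdef, real_inner_smul_right, real_inner_self_eq_norm_sq]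
      field_simp
    have e2 : ⟪(y : E), A (w - ⟪u, w⟫ • u)⟫ ≤ σ := (real_inner_le_norm _ _).trans
      (by rw [norm_eq_of_mem_sphere, one_mul]; exact hw2)
    rw [e, hAw, inner_add_right, real_inner_smul_right]
    have e3 : ⟪u, w⟫ * ⟪(y : E), A u⟫ ≤ |⟪(y : E), A u⟫| :=
      (le_abs_self _).trans (by rw [abs_mul]; exact mul_le_of_le_one_left (abs_nonneg _) hw1)
    linarith
  -- both together
  have hmain : |⟪u, (v : E)⟫| * |⟪(y : E), A u⟫| - σ ≤ |⟪(y : E), A (v : E)⟫| := by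
    rw [hAv, inner_add_right, real_inner_smul_right, ← abs_mul]
    have h1 : |⟪(y : E), A ((v : E) - ⟪u, (v : E)⟫ • u)⟫| ≤ σ :=
      (abs_real_inner_le_norm _ _).trans (by rw [norm_eq_of_mem_sphere, one_mul]; exact hr)
    have h2 := abs_sub_abs_le_abs_sub (⟪u, (v : E)⟫ * ⟪(y : E), A u⟫)
      (-⟪(y : E), A ((v : E) - ⟪u, (v : E)⟫ • u)⟫)
    rw [abs_neg, sub_neg_eq_add] at h2
    linarith
  refine le_trans (sub_le_sub_right ?_ σ) hmain
  refine mul_le_mul ?_ hy' (sub_nonneg.2 hy) (abs_nonneg _)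
  rw [div_le_iff₀ hA0]
  exact hc'

variable {μ : Measure (E →L[ℝ] E)} [IsProbabilityMeasure μ] {ε γ l η : ℝ}

/-- **The gap of the two greatest singular values.** -/
theorem decays_gap (hd : 2 ≤ finrank ℝ E) (hμ : ∀ᵐ A ∂μ, A ∈ unitDet E)
    (hsi : StronglyIrreducible μ.support) (hε : 0 < ε) (hexp : ExpMoment μ ε)
    (hγ : ∀ᵐ x ∂(Measure.infinitePi fun _ : ℕ => μ),
      Tendsto (fun n : ℕ => Real.log ‖randProd n x‖ / n) atTop (𝓝 γ))
    (hl : ∀ᵐ x ∂(Measure.infinitePi fun _ : ℕ => μ),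
      Tendsto (fun n : ℕ => Real.log ((randProd n x : E →ₗ[ℝ] E).singularValues 1) / n) atTop
        (𝓝 l)) (hη : 0 < η) :
    Decays fun (_ : Unit) n => (Measure.infinitePi fun _ : ℕ => μ)
      {x | -((γ - l - η) * n) ≤
        Real.log ((randProd n x : E →ₗ[ℝ] E).singularValues 1) - Real.log ‖randProd n x‖} := by
  have hη' : 0 < η / 3 := by positivity
  refine ((decays_pair hd hμ hε hexp hγ hl hη').add
    ((decays_apply hμ hsi hε hexp hγ hη').comp fun _ : Unit => basePoint E)).mono fun _ n => ?_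
  refine (measure_mono_ae ?_).trans (measure_union_le _ _)
  filter_upwards [ae_all_unitDet μ hμ] with x hx
    (hgap : -((γ - l - η) * n) ≤
      Real.log ((randProd n x : E →ₗ[ℝ] E).singularValues 1) - Real.log ‖randProd n x‖)
  by_contra hcon
  obtain ⟨h1, h2⟩ := not_or.1 hcon
  replace h1 : logPair (randProd n x) < (n : ℝ) * (γ + l + η / 3) := not_le.1 h1
  replace h2 : |Real.log ‖randProd n x (basePoint E : E)‖ - n * γ| < (n : ℝ) * (η / 3) :=
    not_le.1 h2
  have hQ := randProd_mem_unitDet hx n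
  have h3 : Real.log ‖randProd n x (basePoint E : E)‖ ≤ Real.log ‖randProd n x‖ :=
    Real.log_le_log (norm_pos_iff.2 (apply_ne_zero hQ (sph_ne_zero _)))
      (((randProd n x).le_opNorm _).trans_eq (by rw [norm_eq_of_mem_sphere, mul_one]))
  have h4 := (logPair_bounds hd hQ).2.2
  linarith [(abs_lt.1 h2).1]

/-- **The image of a direction stays away from every hyperplane.** -/
theorem decays_hyperplane (hd : 2 ≤ finrank ℝ E) (hμ : ∀ᵐ A ∂μ, A ∈ unitDet E)
    (hsi : StronglyIrreducible μ.support) (hprox : Proximal μ.support) (hε : 0 < ε)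
    (hexp : ExpMoment μ ε) (hη : 0 < η) :
    Decays fun (p : Sph E × Sph E) n => (Measure.infinitePi fun _ : ℕ => μ)
      {x | |⟪(p.1 : E), (act (randProd n x) p.2 : E)⟫| ≤ Real.exp (-(η * n))} := by
  obtain ⟨γ, l, hlγ, -, hγ, hl⟩ :=
    exists_simple_exponent μ hd hμ hsi hprox (integrable_log_norm hμ hε hexp)
  set δ := min (η / 6) ((γ - l) / 8)
  have hδ : 0 < δ := lt_min (by positivity) (by linarith)
  have hδη : 6 * δ ≤ η := by
    have := min_le_left (η / 6) ((γ - l) / 8)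
    linarith
  have hδl : 8 * δ ≤ γ - l := by
    have := min_le_right (η / 6) ((γ - l) / 8)
    linarith
  refine Decays.of_eventually
    ((((decays_apply hμ hsi hε hexp hγ hδ).comp fun p : Sph E × Sph E => p.2).add
      ((decays_adjoint hd hμ hsi hprox hε hexp hγ hδ).comp fun p : Sph E × Sph E => p.1)).add
      (((decays_norm hd hμ hsi hprox hε hexp hγ hδ).comp fun _ : Sph E × Sph E => ()).add
        ((decays_pair hd hμ hε hexp hγ hl hδ).comp fun _ : Sph E × Sph E => ())))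
    (fun _ _ => prob_le_one) ?_
  filter_upwards [tendsto_natCast_atTop_atTop.eventually_ge_atTop (9 / δ)] with n hn
  rintro ⟨y, v⟩
  refine (measure_mono_ae ?_).trans ((measure_union_le _ _).trans
    (add_le_add (measure_union_le _ _) (measure_union_le _ _)))
  filter_upwards [ae_all_unitDet μ hμ] with x hx
    (hev : |⟪(y : E), (act (randProd n x) v : E)⟫| ≤ Real.exp (-(η * n)))
  by_contra hcon
  obtain ⟨hcon₁, hcon₂⟩ := not_or.1 hcon
  obtain ⟨h1, h2⟩ := not_or.1 hcon₁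
  obtain ⟨h3, h4⟩ := not_or.1 hcon₂
  set Q := randProd n x
  replace h1 : |Real.log ‖Q (v : E)‖ - n * γ| < (n : ℝ) * δ := not_le.1 h1
  replace h2 : |Real.log ‖adjoint Q (y : E)‖ - n * γ| < (n : ℝ) * δ := not_le.1 h2
  replace h3 : Real.log ‖Q‖ < (n : ℝ) * (γ + δ) := not_le.1 h3
  replace h4 : logPair Q < (n : ℝ) * (γ + l + δ) := not_le.1 h4
  have hQ : Q ∈ unitDet E := randProd_mem_unitDet hx n
  obtain ⟨h1a, h1b⟩ := abs_lt.1 h1
  obtain ⟨h2a, -⟩ := abs_lt.1 h2
  have hv0 : 0 < ‖Q (v : E)‖ := norm_pos_iff.2 (apply_ne_zero hQ (sph_ne_zero v))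
  have hy0 : 0 < ‖adjoint Q (y : E)‖ :=
    norm_pos_iff.2 (apply_ne_zero (adjoint_mem_unitDet hQ) (sph_ne_zero y))
  have hQ0 : 0 < ‖Q‖ := one_pos.trans_le (one_le_norm hQ)
  have hvQ : Real.log ‖Q (v : E)‖ ≤ Real.log ‖Q‖ :=
    Real.log_le_log hv0 ((Q.le_opNorm _).trans_eq (by rw [norm_eq_of_mem_sphere, mul_one]))
  set σ := (Q : E →ₗ[ℝ] E).singularValues 1
  have hσ0 : 0 < σ := singularValue_one_pos hd hQ
  have hlσ : Real.log σ < (n : ℝ) * (l + 2 * δ) := by
    have := (logPair_bounds hd hQ).2.2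
    linarith
  -- everything in exponentials
  have hn' : 9 ≤ δ * n := by rwa [div_le_iff₀' hδ] at hn
  have hsmall : Real.exp (-(δ * n)) ≤ 1 / 10 := by
    rw [Real.exp_neg, inv_eq_one_div]
    exact one_div_le_one_div_of_le (by norm_num) (le_trans (by linarith) (Real.add_one_le_exp _))
  set P := Real.exp (n * (γ - δ))
  have hP : 0 < P := Real.exp_pos _
  have hPv : P ≤ ‖Q (v : E)‖ := (Real.le_log_iff_exp_le hv0).1 (by linarith)
  have hPy : P ≤ ‖adjoint Q (y : E)‖ := (Real.le_log_iff_exp_le hy0).1 (by linarith)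
  have hQle : ‖Q‖ ≤ P * Real.exp (2 * δ * n) := by
    rw [← Real.exp_add]
    exact (Real.log_le_iff_le_exp hQ0).1 (by linarith)
  have hσP : σ ≤ P * Real.exp (-(2 * δ * n)) * Real.exp (-(δ * n)) := by
    rw [← Real.exp_add, ← Real.exp_add]
    refine (Real.log_le_iff_le_exp hσ0).1 (hlσ.le.trans ?_)
    have := mul_le_mul_of_nonneg_left hδl (Nat.cast_nonneg (α := ℝ) n)
    nlinarith
  have he2 : Real.exp (-(2 * δ * n)) ≤ 1 := Real.exp_le_one_iff.2 (by nlinarith)
  set R := P * Real.exp (-(2 * δ * n))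
  have hR : 0 < R := mul_pos hP (Real.exp_pos _)
  have hσR : σ ≤ R / 10 :=
    hσP.trans ((mul_le_mul_of_nonneg_left hsmall hR.le).trans_eq (by ring))
  have hRP : R ≤ P := mul_le_of_le_one_right hP.le he2
  have key := mul_sub_le_abs_inner hd hQ v y (by linarith)
  have h5 : Real.exp (-(2 * δ * n)) / 2 ≤ (‖Q (v : E)‖ - σ) / ‖Q‖ := by
    rw [le_div_iff₀ hQ0]
    refine le_trans (mul_le_mul_of_nonneg_left hQle (by positivity)) ?_
    have : Real.exp (-(2 * δ * n)) * Real.exp (2 * δ * n) = 1 := by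
      rw [← Real.exp_add, neg_add_cancel, Real.exp_zero]
    calc Real.exp (-(2 * δ * n)) / 2 * (P * Real.exp (2 * δ * n))
        = P / 2 * (Real.exp (-(2 * δ * n)) * Real.exp (2 * δ * n)) := by ring
      _ ≤ _ := by rw [this]; linarith
  have h6 : R / 4 ≤ (‖Q (v : E)‖ - σ) / ‖Q‖ * (‖adjoint Q (y : E)‖ - σ) :=
    le_trans (le_of_eq (by ring)) (mul_le_mul h5 (show P / 2 ≤ _ by linarith) (by positivity)
      (div_nonneg (by linarith) hQ0.le))
  have h7 : R / 10 < |⟪(y : E), Q (v : E)⟫| := by linarith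
  rw [act, coe_dir (norm_pos_iff.1 hv0), real_inner_smul_right, abs_mul, abs_inv, abs_norm,
    inv_mul_le_iff₀ hv0] at hev
  have h8 : ‖Q (v : E)‖ * Real.exp (-(η * n)) ≤ R / 10 := by
    refine (mul_le_mul_of_nonneg_right ((Real.log_le_iff_le_exp hv0).1
      (show Real.log ‖Q (v : E)‖ ≤ n * (γ + δ) by linarith)) (Real.exp_pos _).le).trans ?_
    refine le_trans ?_ ((mul_le_mul_of_nonneg_left hsmall hR.le).trans_eq (by ring))
    simp only [R, P, ← Real.exp_add]
    refine Real.exp_le_exp.2 ?_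
    have := mul_le_mul_of_nonneg_right hδη (Nat.cast_nonneg (α := ℝ) n)
    nlinarith
  linarith

end FA.ProjectiveRegularity
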