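import Fermat.Agent.ProjectiveRegularity.Hyperplane

/-!
# Regularity of the stationary measures

A stationary measure is the mean of the laws of `n` steps, so it gives the exponentially thin
neighbourhood of a hyperplane an exponentially small mass.
-/

set_option autoImplicit false

noncomputable section

namespace FA.ProjectiveRegularity

open MeasureTheory Filter Topology Module Set
open FA.FurstenbergLyapunov FA.FurstenbergKifer FA.GuivarchRaugi FA.LePage
open scoped ENNReal RealInnerProductSpace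

variable {E : Type*} [NormedAddCommGroup E] [InnerProductSpace ℝ E] [FiniteDimensional ℝ E]
  [MeasurableSpace E] [BorelSpace E] [Nontrivial E]

variable {μ : Measure (E →L[ℝ] E)} [IsProbabilityMeasure μ] {ε : ℝ}

omit [MeasurableSpace E] [BorelSpace E] in
theorem skew_iterate_fst {x : ℕ → E →L[ℝ] E} (hx : ∀ i, x i ∈ unitDet E) (n : ℕ) (v : Sph E) :
    (skew^[n] (v, x)).1 = act (randProd n x) v := by
  induction n generalizing x v with
  | zero => simp [randProd, FA.Kingman.cocycleProd, act_one]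
  | succ n ih =>
    rw [Function.iterate_succ_apply]
    show (skew^[n] (act (x 0) v, shift x)).1 = _
    rw [ih (x := shift x) (fun i => hx (i + 1)), randProd_succ,
      act_mul (randProd_mem_unitDet (x := shift x) (fun i => hx (i + 1)) n) (hx 0)]

/-- A stationary measure is the mean of the laws of `n` steps. -/
theorem stationary_eq_lintegral (hμ : ∀ᵐ A ∂μ, A ∈ unitDet E) (ν : Measure (Sph E))
    [IsProbabilityMeasure ν] (hν : stepLaw μ ν = ν) {S : Set (Sph E)} (hS : MeasurableSet S)
    (n : ℕ) :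
    ν S = ∫⁻ v, (Measure.infinitePi fun _ : ℕ => μ) {x | act (randProd n x) v ∈ S} ∂ν := by
  set π := Measure.infinitePi fun _ : ℕ => μ
  have hT := (measurePreserving_skew μ hν).iterate n
  have hm : MeasurableSet {p : Sph E × (ℕ → E →L[ℝ] E) | act (randProd n p.2) p.1 ∈ S} :=
    (measurable_act_pair ((measurable_randProd n).comp measurable_snd) measurable_fst) hS
  calc ν S = (ν.prod π) (S ×ˢ univ) := by rw [Measure.prod_prod, measure_univ, mul_one]
    _ = (ν.prod π) (skew^[n] ⁻¹' (S ×ˢ univ)) :=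
        (hT.measure_preimage (hS.prod MeasurableSet.univ).nullMeasurableSet).symm
    _ = (ν.prod π) {p : Sph E × (ℕ → E →L[ℝ] E) | act (randProd n p.2) p.1 ∈ S} := by
        refine measure_congr ?_
        filter_upwards [ae_prod_snd μ (ae_all_unitDet μ hμ)] with p hp
        have e : (skew^[n] p).1 = act (randProd n p.2) p.1 := skew_iterate_fst hp n p.1
        refine propext ?_
        show (skew^[n] p).1 ∈ S ∧ (skew^[n] p).2 ∈ (univ : Set (ℕ → E →L[ℝ] E)) ↔
          act (randProd n p.2) p.1 ∈ S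
        rw [e]
        simp
    _ = _ := Measure.prod_apply hm

omit [FiniteDimensional ℝ E] [Nontrivial E] in
theorem measurableSet_nearHyperplane (y : E) (r : ℝ) :
    MeasurableSet {w : Sph E | |⟪y, (w : E)⟫| ≤ r} :=
  (isClosed_le ((continuous_const.inner continuous_subtype_val).abs) continuous_const).measurableSet

/-- **Hölder regularity of the stationary measures.** -/
theorem exists_regularity (hd : 2 ≤ finrank ℝ E) (hμ : ∀ᵐ A ∂μ, A ∈ unitDet E)
    (hsi : StronglyIrreducible μ.support) (hprox : Proximal μ.support) (hε : 0 < ε)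
    (hexp : ExpMoment μ ε) :
    ∃ α C : ℝ, 0 < α ∧ 0 ≤ C ∧ ∀ ν : Measure (Sph E), IsProbabilityMeasure ν → stepLaw μ ν = ν →
      ∀ (y : Sph E) (r : ℝ), 0 < r →
        ν {w : Sph E | |⟪(y : E), (w : E)⟫| ≤ r} ≤ ENNReal.ofReal (C * r ^ α) := by
  obtain ⟨C, q, hC, hq, hq1, hb⟩ :=
    decays_hyperplane hd hμ hsi hprox hε hexp (η := 1) one_pos
  have hlq : Real.log q < 0 := Real.log_neg hq hq1
  refine ⟨-Real.log q, C / q + 1, by linarith, by positivity, fun ν _ hν y r hr => ?_⟩
  rcases le_or_gt 1 r with hr1 | hr1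
  · refine prob_le_one.trans (ENNReal.one_le_ofReal.2 ?_)
    calc (1 : ℝ) = 1 * 1 := (one_mul 1).symm
      _ ≤ _ := mul_le_mul (le_add_of_nonneg_left (by positivity))
          (Real.one_le_rpow hr1 (by linarith)) zero_le_one (by positivity)
  set n := ⌊-Real.log r⌋₊
  have hlog : 0 ≤ -Real.log r := neg_nonneg.2 (Real.log_neg hr hr1).le
  have hn1 : (n : ℝ) ≤ -Real.log r := Nat.floor_le hlog
  have hn2 : -Real.log r < n + 1 := Nat.lt_floor_add_one _
  have hr2 : r ≤ Real.exp (-(1 * (n : ℝ))) := by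
    rw [← Real.exp_log hr]
    exact Real.exp_le_exp.2 (by linarith)
  refine (measure_mono
    (t := {w : Sph E | |⟪(y : E), (w : E)⟫| ≤ Real.exp (-(1 * (n : ℝ)))})
    fun (w : Sph E) (hw : |⟪(y : E), (w : E)⟫| ≤ r) => hw.trans hr2).trans ?_
  rw [stationary_eq_lintegral hμ ν hν (measurableSet_nearHyperplane (y : E) _) n]
  refine (lintegral_mono fun v => hb (y, v) n).trans ?_
  rw [lintegral_const, measure_univ, mul_one]
  refine ENNReal.ofReal_le_ofReal ?_
  calc C * q ^ n ≤ C * (q⁻¹ * r ^ (-Real.log q)) := by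
        refine mul_le_mul_of_nonneg_left ?_ hC
        rw [← Real.rpow_natCast, Real.rpow_def_of_pos hq, Real.rpow_def_of_pos hr,
          ← Real.exp_log (inv_pos.2 hq), ← Real.exp_add, Real.log_inv]
        refine Real.exp_le_exp.2 ?_
        nlinarith
    _ ≤ (C / q + 1) * r ^ (-Real.log q) := by
        rw [← mul_assoc, ← div_eq_mul_inv]
        exact mul_le_mul_of_nonneg_right (le_add_of_nonneg_right zero_le_one)
          (Real.rpow_nonneg hr.le _)

/-- **A negative power of the distance to a hyperplane is integrable, uniformly.** -/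
theorem exists_negative_moment (hd : 2 ≤ finrank ℝ E) (hμ : ∀ᵐ A ∂μ, A ∈ unitDet E)
    (hsi : StronglyIrreducible μ.support) (hprox : Proximal μ.support) (hε : 0 < ε)
    (hexp : ExpMoment μ ε) :
    ∃ β M : ℝ, 0 < β ∧ ∀ ν : Measure (Sph E), IsProbabilityMeasure ν → stepLaw μ ν = ν →
      ∀ y : Sph E, ν {w : Sph E | ⟪(y : E), (w : E)⟫ = 0} = 0 ∧
        ∫⁻ w : Sph E, ENNReal.ofReal (|⟪(y : E), (w : E)⟫| ^ (-β)) ∂ν ≤ ENNReal.ofReal M := by
  obtain ⟨α, C, hα, hC, h⟩ := exists_regularity hd hμ hsi hprox hε hexp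
  have hgeo : Summable fun k : ℕ => C * Real.exp (α / 2) * Real.exp (-(α / 2)) ^ k :=
    (summable_geometric_of_lt_one (Real.exp_pos _).le
      (Real.exp_lt_one_iff.2 (by linarith))).mul_left _
  refine ⟨α / 2, ∑' k : ℕ, C * Real.exp (α / 2) * Real.exp (-(α / 2)) ^ k, by positivity,
    fun ν _ hν y => ⟨?_, ?_⟩⟩
  · refine le_antisymm (ge_of_tendsto (x := atTop)
      (f := fun k : ℕ => ENNReal.ofReal (C * Real.exp (-α) ^ k)) ?_ (.of_forall fun k => ?_)) bot_le
    · rw [← ENNReal.ofReal_zero, ← mul_zero C]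
      exact ENNReal.tendsto_ofReal ((tendsto_pow_atTop_nhds_zero_of_lt_one (Real.exp_pos _).le
        (Real.exp_lt_one_iff.2 (by linarith))).const_mul C)
    · refine (measure_mono fun (w : Sph E) (hw : ⟪(y : E), (w : E)⟫ = 0) => ?_).trans
        ((h ν inferInstance hν y (Real.exp (-(k : ℝ))) (Real.exp_pos _)).trans_eq ?_)
      · show |⟪(y : E), (w : E)⟫| ≤ _
        rw [hw, abs_zero]
        exact (Real.exp_pos _).le
      · rw [← Real.exp_mul, ← Real.exp_nat_mul]
        congr 3
        ring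
  set T : ℕ → Set (Sph E) := fun k => {w : Sph E | |⟪(y : E), (w : E)⟫| ≤ Real.exp (-(k : ℝ))}
  set c : ℕ → ℝ≥0∞ := fun k => ENNReal.ofReal (Real.exp (α / 2 * (k + 1)))
  have hpt : ∀ w : Sph E, ENNReal.ofReal (|⟪(y : E), (w : E)⟫| ^ (-(α / 2))) ≤
      ∑' k, (T k).indicator (fun _ => c k) w := by
    intro w
    set f := |⟪(y : E), (w : E)⟫|
    rcases (abs_nonneg ⟪(y : E), (w : E)⟫).eq_or_lt with hf | hf
    · simp [f, ← hf, Real.zero_rpow (show -(α / 2) ≠ 0 by linarith)]
    have hf1 : f ≤ 1 := by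
      simpa [f, norm_eq_of_mem_sphere] using abs_real_inner_le_norm (y : E) (w : E)
    set k := ⌊-Real.log f⌋₊
    have hk1 : (k : ℝ) ≤ -Real.log f := Nat.floor_le (neg_nonneg.2 (Real.log_nonpos hf.le hf1))
    have hk2 : -Real.log f < k + 1 := Nat.lt_floor_add_one _
    refine le_trans ?_ (ENNReal.le_tsum k)
    rw [Set.indicator_of_mem (show w ∈ T k from (Real.log_le_iff_le_exp hf).1 (by linarith))]
    refine ENNReal.ofReal_le_ofReal ?_
    rw [Real.rpow_def_of_pos hf]
    refine Real.exp_le_exp.2 ?_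
    nlinarith
  refine (lintegral_mono hpt).trans ?_
  rw [lintegral_tsum fun k => (measurable_const.indicator
      (measurableSet_nearHyperplane (y : E) _)).aemeasurable,
    ENNReal.ofReal_tsum_of_nonneg (fun k => by positivity) hgeo]
  refine ENNReal.tsum_le_tsum fun k => ?_
  rw [lintegral_indicator (measurableSet_nearHyperplane (y : E) _), setLIntegral_const]
  refine (mul_le_mul' le_rfl (h ν inferInstance hν y _ (Real.exp_pos _))).trans_eq ?_
  rw [← ENNReal.ofReal_mul (Real.exp_pos _).le, ← Real.exp_mul, ← Real.exp_nat_mul, mul_left_comm,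
    mul_assoc C, ← Real.exp_add, ← Real.exp_add]
  congr 3
  ring

end FA.ProjectiveRegularity
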